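import Fermat.Agent.S55.K.IndH698

/-!
# S55 / layer K / GO3-SHAP (helper240): Shapiro injectivity on level-constant `H²`, core

`G` a group, `V ≤ G` a subgroup of finite index, `A : Rep k G`, `Ind_V A = (G ⧸ V →₀ A)`.
For a 2-cocycle `x : G × G → Ind_V A` put

  `F a b c := a • (x (a⁻¹ b, b⁻¹ c)) (a⁻¹ V) ∈ A`

(the homogeneous `V`-equivariant cocycle attached to `x` by Frobenius reciprocity).  If
`F = dY` on `V` (`Y a b = a • y (a⁻¹ b)`), then `F = dZ` on `G`, where, for a `V`-equivariant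
retraction `r : G → V`,

  `Z a b = Y (r a) (r b) + F (r a) a b - F (r a) (r b) b`        (prism operator),

and `x = dz` with `z g (tV) = t • Z t⁻¹ (t⁻¹ g)`.  Everything is right-invariant under a normal
subgroup `U ≤ V` as soon as `x` and `y` are.
-/

set_option autoImplicit false
set_option linter.unusedSectionVars false
set_option linter.unusedVariables false

noncomputable section

namespace Fermat.Agent.S55.K.GO3H240

open groupCohomology Fermat.Agent.S55.PT Fermat.Agent.S55.K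

variable {k : Type} [CommRing k] {G : Type} [Group G]

/-! ### coefficients of elements of `Ind_V A` -/

section coef

variable (V : Subgroup G) (A : Rep.{0, 0, 0} k G)

/-- the coefficient of an element of `Ind_V A` at a coset -/
def coef (m : indG V A) (c : G ⧸ V) : A := (show (G ⧸ V) →₀ A from m) c

/-- the coefficient at `c`, as an additive map -/
def coefHom (c : G ⧸ V) : ((G ⧸ V) →₀ A) →+ A := Finsupp.applyAddHom c

lemma coef_eq_coefHom (m : indG V A) (c : G ⧸ V) :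
    coef V A m c = coefHom V A c (show (G ⧸ V) →₀ A from m) := rfl

@[simp] lemma coef_add (m m' : indG V A) (c : G ⧸ V) :
    coef V A (m + m') c = coef V A m c + coef V A m' c :=
  Finsupp.add_apply _ _ _

@[simp] lemma coef_sub (m m' : indG V A) (c : G ⧸ V) :
    coef V A (m - m') c = coef V A m c - coef V A m' c :=
  Finsupp.sub_apply _ _ _

lemma coef_ext {m m' : indG V A} (h : ∀ c, coef V A m c = coef V A m' c) : m = m' :=
  Finsupp.ext h

lemma coef_ρ (g : G) (m : indG V A) (c : G ⧸ V) :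
    coef V A ((indG V A).ρ g m) c = A.ρ g (coef V A m (g⁻¹ • c)) := by
  classical
  refine H698.ind_hom_ext V A
    ((coefHom V A c).comp ((indG V A).ρ g).toAddMonoidHom)
    ((A.ρ g).toAddMonoidHom.comp (coefHom V A (g⁻¹ • c))) (fun x a => ?_) m
  show coefHom V A c ((indG V A).ρ g (Finsupp.single x a)) =
    A.ρ g (coefHom V A (g⁻¹ • c) (Finsupp.single x a))
  rw [H698.ind_ρ_single]
  show (Finsupp.single (g • x) (A.ρ g a) : (G ⧸ V) →₀ A) c =
    A.ρ g ((Finsupp.single x a : (G ⧸ V) →₀ A) (g⁻¹ • c))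
  rw [Finsupp.single_apply, Finsupp.single_apply]
  by_cases h : g • x = c
  · rw [if_pos h, if_pos (by rw [← h, inv_smul_smul])]
  · rw [if_neg h, if_neg (fun h' => h (by rw [h', smul_inv_smul])), map_zero]

lemma coef_ρ_mk (g t : G) (m : indG V A) :
    coef V A ((indG V A).ρ g m) (QuotientGroup.mk t) =
      A.ρ g (coef V A m (QuotientGroup.mk (g⁻¹ * t))) :=
  coef_ρ V A g m _

end coef

/-! ### the homogeneous cochain attached to `x` -/

section homog

variable (V : Subgroup G) (A : Rep.{0, 0, 0} k G) (x : G × G → indG V A)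

/-- the homogeneous `V`-equivariant 2-cochain attached to `x` -/
def hom3 (a b c : G) : A :=
  A.ρ a (coef V A (x (a⁻¹ * b, b⁻¹ * c)) (QuotientGroup.mk a⁻¹))

lemma ρ_ρ (a b : G) (m : A) : A.ρ a (A.ρ b m) = A.ρ (a * b) m := by
  rw [map_mul]; rfl

lemma hom3_smul {v : G} (hv : v ∈ V) (a b c : G) :
    hom3 V A x (v * a) (v * b) (v * c) = A.ρ v (hom3 V A x a b c) := by
  unfold hom3
  have e1 : (v * a)⁻¹ * (v * b) = a⁻¹ * b := by group
  have e2 : (v * b)⁻¹ * (v * c) = b⁻¹ * c := by group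
  have e3 : (QuotientGroup.mk (v * a)⁻¹ : G ⧸ V) = QuotientGroup.mk a⁻¹ := by
    rw [QuotientGroup.eq]
    have : ((v * a)⁻¹)⁻¹ * a⁻¹ = v := by group
    rw [this]; exact hv
  rw [e1, e2, e3, ρ_ρ]

lemma hom3_cocycle (hx : x ∈ cocycles₂ (indG V A)) (a b c d : G) :
    hom3 V A x b c d - hom3 V A x a c d + hom3 V A x a b d - hom3 V A x a b c = 0 := by
  have h := (mem_cocycles₂_iff x).mp hx (a⁻¹ * b) (b⁻¹ * c) (c⁻¹ * d)
  have e1 : a⁻¹ * b * (b⁻¹ * c) = a⁻¹ * c := by group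
  have e2 : b⁻¹ * c * (c⁻¹ * d) = b⁻¹ * d := by group
  rw [e1, e2] at h
  have h' := congrArg (fun m => A.ρ a (coef V A m (QuotientGroup.mk a⁻¹))) h
  simp only [coef_add, map_add] at h'
  rw [coef_ρ_mk] at h'
  have e3 : (a⁻¹ * b)⁻¹ * a⁻¹ = b⁻¹ := by group
  rw [e3, ρ_ρ] at h'
  have e4 : a * (a⁻¹ * b) = b := by group
  rw [e4] at h'
  have hP : hom3 V A x a c d + hom3 V A x a b c = hom3 V A x b c d + hom3 V A x a b d := h'
  have : hom3 V A x b c d - hom3 V A x a c d + hom3 V A x a b d - hom3 V A x a b c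
      = (hom3 V A x b c d + hom3 V A x a b d) - (hom3 V A x a c d + hom3 V A x a b c) := by abel
  rw [this, hP, sub_self]

/-- right invariance of `hom3` in the last variable -/
lemma hom3_right {U : Subgroup G}
    (hxU : ∀ g g' s s' : G, s ∈ U → s' ∈ U → x (g * s, g' * s') = x (g, g'))
    (a b c : G) {u : G} (hu : u ∈ U) : hom3 V A x a b (c * u) = hom3 V A x a b c := by
  unfold hom3
  have e : b⁻¹ * (c * u) = b⁻¹ * c * u := by group
  have := hxU (a⁻¹ * b) (b⁻¹ * c) 1 u U.one_mem hu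
  rw [mul_one] at this
  rw [e, this]

/-- right invariance of `hom3` in the last two variables, `U` normal -/
lemma hom3_right₂ {U : Subgroup G} (hU : U.Normal)
    (hxU : ∀ g g' s s' : G, s ∈ U → s' ∈ U → x (g * s, g' * s') = x (g, g'))
    (a b c : G) {u u' : G} (hu : u ∈ U) (hu' : u' ∈ U) :
    hom3 V A x a (b * u) (c * u') = hom3 V A x a b c := by
  unfold hom3
  have e1 : a⁻¹ * (b * u) = a⁻¹ * b * u := by group
  have e2 : (b * u)⁻¹ * (c * u') = b⁻¹ * c * ((b⁻¹ * c)⁻¹ * u⁻¹ * (b⁻¹ * c) * u') := by group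
  have hmem : (b⁻¹ * c)⁻¹ * u⁻¹ * (b⁻¹ * c) * u' ∈ U := by
    refine U.mul_mem ?_ hu'
    have := hU.conj_mem u⁻¹ (U.inv_mem hu) (b⁻¹ * c)⁻¹
    rwa [inv_inv] at this
  rw [e1, e2, hxU _ _ _ _ hu hmem]

end homog

/-! ### the prism operator -/

section prism

variable {M : Type*} [AddCommGroup M] (F : G → G → G → M) (Y : G → G → M) (r : G → G)

/-- the prism operator applied to `F`, corrected by `Y` -/
def prismZ (a b : G) : M := Y (r a) (r b) + F (r a) a b - F (r a) (r b) b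

lemma prism_d (hF : ∀ a b c d, F b c d - F a c d + F a b d - F a b c = 0)
    (hY : ∀ a b c, F (r a) (r b) (r c) = Y (r b) (r c) - Y (r a) (r c) + Y (r a) (r b))
    (a b c : G) :
    prismZ F Y r b c - prismZ F Y r a c + prismZ F Y r a b = F a b c := by
  have h1 := hF (r a) a b c
  have h2 := hF (r a) (r b) b c
  have h3 := hF (r a) (r b) (r c) c
  have h4 := hY a b c
  unfold prismZ
  rw [← sub_eq_zero]
  have key : Y (r b) (r c) + F (r b) b c - F (r b) (r c) c
        - (Y (r a) (r c) + F (r a) a c - F (r a) (r c) c)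
        + (Y (r a) (r b) + F (r a) a b - F (r a) (r b) b) - F a b c
      = -(F a b c - F (r a) b c + F (r a) a c - F (r a) a b)
        + (F (r b) b c - F (r a) b c + F (r a) (r b) c - F (r a) (r b) b)
        - (F (r b) (r c) c - F (r a) (r c) c + F (r a) (r b) c - F (r a) (r b) (r c))
        - (F (r a) (r b) (r c) - (Y (r b) (r c) - Y (r a) (r c) + Y (r a) (r b))) := by
    abel
  rw [key, h1, h2, h3, h4]
  simp

end prism

/-! ### a `V`-equivariant retraction `G → V` -/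

section retract

variable (V : Subgroup G)

/-- a `V`-equivariant retraction `G → V` (as a map `G → G`) -/
def retr (g : G) : G := g * ((QuotientGroup.mk g⁻¹ : G ⧸ V).out)

lemma retr_mem (g : G) : retr V g ∈ V := by
  unfold retr
  obtain ⟨h, H⟩ := QuotientGroup.mk_out_eq_mul V g⁻¹
  rw [H]
  have : g * (g⁻¹ * (h : G)) = h := by group
  rw [this]
  exact h.2

lemma retr_smul {v : G} (hv : v ∈ V) (g : G) : retr V (v * g) = v * retr V g := by
  unfold retr
  have e : (QuotientGroup.mk (v * g)⁻¹ : G ⧸ V) = QuotientGroup.mk g⁻¹ := by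
    rw [QuotientGroup.eq]
    have : ((v * g)⁻¹)⁻¹ * g⁻¹ = v := by group
    rw [this]; exact hv
  rw [e, mul_assoc]

/-- for a normal subgroup `U ≤ V`, the retraction is compatible with right translation by `U` -/
lemma retr_right {U : Subgroup G} (hU : U.Normal) (hUV : U ≤ V) (g : G) {u : G} (hu : u ∈ U) :
    ∃ u' ∈ U, retr V (g * u) = retr V g * u' := by
  have h1 : g * u * g⁻¹ ∈ U := hU.conj_mem u hu g
  have e : g * u = (g * u * g⁻¹) * g := by group
  refine ⟨(retr V g)⁻¹ * (g * u * g⁻¹) * retr V g, ?_, ?_⟩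
  · have := hU.conj_mem _ h1 (retr V g)⁻¹
    rwa [inv_inv] at this
  · rw [e, retr_smul V (hUV h1)]
    group

end retract

/-! ### the 1-cochain `z` -/

section main

variable (V : Subgroup G) (A : Rep.{0, 0, 0} k G) (x : G × G → indG V A) (y' : G → A)

/-- `Y a b = a • y (a⁻¹ b)` -/
def homY (a b : G) : A := A.ρ a (y' (a⁻¹ * b))

lemma homY_smul (v a b : G) : homY A y' (v * a) (v * b) = A.ρ v (homY A y' a b) := by
  unfold homY
  have e : (v * a)⁻¹ * (v * b) = a⁻¹ * b := by group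
  rw [e, ρ_ρ]

/-- the homogeneous 1-cochain `Z` -/
def zZ (a b : G) : A := prismZ (hom3 V A x) (homY A y') (retr V) a b

lemma zZ_smul {v : G} (hv : v ∈ V) (a b : G) :
    zZ V A x y' (v * a) (v * b) = A.ρ v (zZ V A x y' a b) := by
  unfold zZ prismZ
  rw [retr_smul V hv, retr_smul V hv, homY_smul, hom3_smul V A x hv, hom3_smul V A x hv,
    map_sub, map_add]

lemma zZ_right {U : Subgroup G} (hU : U.Normal) (hUV : U ≤ V)
    (hxU : ∀ g g' s s' : G, s ∈ U → s' ∈ U → x (g * s, g' * s') = x (g, g'))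
    (hyU : ∀ w ∈ V, ∀ u ∈ U, y' (w * u) = y' w) (a b : G) {u : G} (hu : u ∈ U) :
    zZ V A x y' a (b * u) = zZ V A x y' a b := by
  unfold zZ prismZ
  obtain ⟨u', hu', e⟩ := retr_right V hU hUV b hu
  rw [e, hom3_right V A x hxU _ _ _ hu, hom3_right₂ V A x hU hxU _ _ _ hu' hu]
  congr 2
  unfold homY
  have e2 : (retr V a)⁻¹ * (retr V b * u') = (retr V a)⁻¹ * retr V b * u' := by group
  rw [e2, hyU _ (V.mul_mem (V.inv_mem (retr_mem V a)) (retr_mem V b)) _ hu']

/-- `W t g = t • Z t⁻¹ (t⁻¹ g)` depends only on the coset `t V` -/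
def wW (t g : G) : A := A.ρ t (zZ V A x y' t⁻¹ (t⁻¹ * g))

lemma wW_mul_right {v : G} (hv : v ∈ V) (t g : G) : wW V A x y' (t * v) g = wW V A x y' t g := by
  unfold wW
  have e1 : (t * v)⁻¹ = v⁻¹ * t⁻¹ := by group
  have e2 : v⁻¹ * t⁻¹ * g = v⁻¹ * (t⁻¹ * g) := by group
  rw [e1, e2, zZ_smul V A x y' (V.inv_mem hv), ρ_ρ]
  congr 2
  group

lemma wW_out (t g : G) :
    wW V A x y' ((QuotientGroup.mk t : G ⧸ V).out) g = wW V A x y' t g := by
  obtain ⟨h, H⟩ := QuotientGroup.mk_out_eq_mul V t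
  rw [H, wW_mul_right V A x y' h.2]

lemma wW_right {U : Subgroup G} (hU : U.Normal) (hUV : U ≤ V)
    (hxU : ∀ g g' s s' : G, s ∈ U → s' ∈ U → x (g * s, g' * s') = x (g, g'))
    (hyU : ∀ w ∈ V, ∀ u ∈ U, y' (w * u) = y' w) (t g : G) {u : G} (hu : u ∈ U) :
    wW V A x y' t (g * u) = wW V A x y' t g := by
  unfold wW
  have e : t⁻¹ * (g * u) = t⁻¹ * g * u := by group
  rw [e, zZ_right V A x y' hU hUV hxU hyU _ _ hu]

variable [Finite (G ⧸ V)]

/-- the 1-cochain `z` with `dz = x` -/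
def zCochain (g : G) : indG V A :=
  (Finsupp.equivFunOnFinite.symm (fun c : G ⧸ V => wW V A x y' c.out g) : (G ⧸ V) →₀ A)

lemma coef_zCochain (g t : G) :
    coef V A (zCochain V A x y' g) (QuotientGroup.mk t) = wW V A x y' t g := by
  show wW V A x y' ((QuotientGroup.mk t : G ⧸ V).out) g = _
  exact wW_out V A x y' t g

theorem d_zCochain (hx : x ∈ cocycles₂ (indG V A))
    (hy : ∀ a b c, a ∈ V → b ∈ V → c ∈ V →
      hom3 V A x a b c = homY A y' b c - homY A y' a c + homY A y' a b) :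
    (d₁₂ (indG V A)).hom (zCochain V A x y') = x := by
  funext ⟨g, h⟩
  apply coef_ext
  intro c
  induction c using QuotientGroup.induction_on with
  | H t =>
    rw [d₁₂_hom_apply]
    simp only [coef_add, coef_sub]
    rw [coef_ρ_mk, coef_zCochain, coef_zCochain, coef_zCochain]
    have key := prism_d (hom3 V A x) (homY A y') (retr V) (hom3_cocycle V A x hx)
      (fun a b c => hy _ _ _ (retr_mem V a) (retr_mem V b) (retr_mem V c))
      t⁻¹ (t⁻¹ * g) (t⁻¹ * (g * h))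
    have e1 : A.ρ g (wW V A x y' (g⁻¹ * t) h) = A.ρ t (zZ V A x y' (t⁻¹ * g) (t⁻¹ * (g * h))) := by
      unfold wW
      rw [ρ_ρ]
      have a1 : g * (g⁻¹ * t) = t := by group
      have a2 : (g⁻¹ * t)⁻¹ = t⁻¹ * g := by group
      have a3 : t⁻¹ * g * h = t⁻¹ * (g * h) := by group
      rw [a1, a2, a3]
    rw [e1]
    unfold wW
    rw [← map_sub, ← map_add]
    change A.ρ t (prismZ (hom3 V A x) (homY A y') (retr V) (t⁻¹ * g) (t⁻¹ * (g * h))
      - prismZ (hom3 V A x) (homY A y') (retr V) t⁻¹ (t⁻¹ * (g * h))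
      + prismZ (hom3 V A x) (homY A y') (retr V) t⁻¹ (t⁻¹ * g)) = _
    rw [key]
    unfold hom3
    rw [ρ_ρ]
    have b1 : t * t⁻¹ = 1 := by group
    have b2 : (t⁻¹)⁻¹ * (t⁻¹ * g) = g := by group
    have b3 : (t⁻¹ * g)⁻¹ * (t⁻¹ * (g * h)) = h := by group
    rw [b1, b2, b3, inv_inv, map_one]
    rfl

lemma zCochain_right {U : Subgroup G} (hU : U.Normal) (hUV : U ≤ V)
    (hxU : ∀ g g' s s' : G, s ∈ U → s' ∈ U → x (g * s, g' * s') = x (g, g'))
    (hyU : ∀ w ∈ V, ∀ u ∈ U, y' (w * u) = y' w) (g : G) {u : G} (hu : u ∈ U) :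
    zCochain V A x y' (g * u) = zCochain V A x y' g := by
  apply coef_ext
  intro c
  induction c using QuotientGroup.induction_on with
  | H t =>
    rw [coef_zCochain, coef_zCochain, wW_right V A x y' hU hUV hxU hyU _ _ hu]

end main

/-! ### the main theorem, for an arbitrary level system -/

/-- **Shapiro injectivity on level-constant `H²`**, for a level system with cofinal normal levels
and levels of finite index. -/
theorem shapiroInj_core (L : LevelSys G) (hN : L.NormalCofinal) (hF : L.FiniteIndex)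
    (A : Rep.{0, 0, 0} k G) (V : Subgroup G) (hV : V ∈ L.levels)
    (x : G × G → indG V A) (hx : x ∈ L.Z2 (indG V A)) (y : ↥V → A)
    (hyU : ∃ U ∈ L.levels, U ≤ V ∧ ∀ v s : ↥V, (s : G) ∈ U → y (v * s) = y v)
    (hxy : ∀ v₁ v₂ : ↥V, coef V A (x ((v₁ : G), (v₂ : G))) (QuotientGroup.mk (1 : G)) =
      A.ρ (v₁ : G) (y v₂) - y (v₁ * v₂) + y v₁) :
    x ∈ L.B2 (indG V A) := by
  classical
  have : V.FiniteIndex := hF V hV
  have : Finite (G ⧸ V) := Subgroup.finite_quotient_of_finiteIndex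
  obtain ⟨hxc, U₁, hU₁, hxU₁⟩ := hx
  obtain ⟨U₂, hU₂, hU₂V, hyU₂⟩ := hyU
  obtain ⟨W, hW, hWle⟩ := L.directed U₁ hU₁ U₂ hU₂
  obtain ⟨U, hU, hUW, hUn⟩ := hN W hW
  have hUU₁ : U ≤ U₁ := fun s hs => (hWle (hUW hs)).1
  have hUU₂ : U ≤ U₂ := fun s hs => (hWle (hUW hs)).2
  have hUV : U ≤ V := hUU₂.trans hU₂V
  -- extension of `y` by zero
  let y' : G → A := fun g => if h : g ∈ V then y ⟨g, h⟩ else 0
  have hy' : ∀ (g : G) (h : g ∈ V), y' g = y ⟨g, h⟩ := fun g h => dif_pos h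
  have hxU : ∀ g g' s s' : G, s ∈ U → s' ∈ U → x (g * s, g' * s') = x (g, g') :=
    fun g g' s s' hs hs' => hxU₁ g g' s s' (hUU₁ hs) (hUU₁ hs')
  have hyU : ∀ w ∈ V, ∀ u ∈ U, y' (w * u) = y' w := by
    intro w hw u hu
    rw [hy' _ (V.mul_mem hw (hUV hu)), hy' _ hw]
    exact hyU₂ ⟨w, hw⟩ ⟨u, hUV hu⟩ (hUU₂ hu)
  have hy : ∀ a b c, a ∈ V → b ∈ V → c ∈ V →
      hom3 V A x a b c = homY A y' b c - homY A y' a c + homY A y' a b := by
    intro a b c ha hb hc
    have hab : a⁻¹ * b ∈ V := V.mul_mem (V.inv_mem ha) hb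
    have hbc : b⁻¹ * c ∈ V := V.mul_mem (V.inv_mem hb) hc
    have hac : a⁻¹ * c ∈ V := V.mul_mem (V.inv_mem ha) hc
    have h := hxy ⟨a⁻¹ * b, hab⟩ ⟨b⁻¹ * c, hbc⟩
    have e0 : (QuotientGroup.mk a⁻¹ : G ⧸ V) = QuotientGroup.mk (1 : G) := by
      rw [QuotientGroup.eq]
      simpa using ha
    have e1 : (⟨a⁻¹ * b, hab⟩ : ↥V) * ⟨b⁻¹ * c, hbc⟩ = ⟨a⁻¹ * c, hac⟩ := by
      apply Subtype.ext
      show a⁻¹ * b * (b⁻¹ * c) = a⁻¹ * c
      group
    unfold hom3 homY
    rw [e0]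
    simp only [] at h
    rw [h, e1, hy' _ hab, hy' _ hbc, hy' _ hac, map_add, map_sub, ρ_ρ]
    have e2 : a * (a⁻¹ * b) = b := by group
    rw [e2]
  refine Submodule.mem_map.mpr ⟨zCochain V A x y', ?_, d_zCochain V A x y' hxc hy⟩
  exact ⟨U, hU, fun g s hs => zCochain_right V A x y' hUn hUV hxU hyU g hs⟩

end Fermat.Agent.S55.K.GO3H240

end
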