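import Fermat.Agent.S55.K.GO3H535.Spec
import Fermat.Agent.S55.K.GO3H240.Core

/-!
# S55 / layer K / GO3-SHAP (helper240): `ShapiroInjSpec`

`shapiroInj S : GO3H535.ShapiroInjSpec S` — injectivity of Shapiro's map on level-constant `H²`
of `Ind_V A`, for the global level system.  Direct cochain proof (`Core.lean`): prism operator
for a `V`-equivariant retraction `G → V`; no finite quotients, no `groupCohomology` classes.
-/

set_option autoImplicit false

namespace Fermat.Agent.S55.K.GO3H240

open groupCohomology Fermat.Agent.S55.PT Fermat.Agent.S55.K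

/-- **GO3-SHAP.** -/
theorem shapiroInj (S : Finset Nat.Primes) : GO3H535.ShapiroInjSpec S := by
  rintro A V hV x hx ⟨y, hyU, hxy⟩
  exact shapiroInj_core (globalLevels S) (H698.globalLevels_normalCofinal S)
    (H698.globalLevels_finiteIndex S) A V hV x hx y hyU hxy

end Fermat.Agent.S55.K.GO3H240
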